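import Fermat.Agent.S56.H956.TWPFrob

/-!
# S56 / TWP — Taylor–Wiles primes from the Taylor–Wiles element (helper956)

`twPrimesOfElement : TWPrimesOfElementStatement`, i.e.
`TWElementStatement → FrobeniusDivisionStatement → TWPrimesStatement`:
given the group-theoretic Taylor–Wiles element (P3) and Frobenius' density theorem (Lib/Cheb
Tier 1), every dual Selmer frame `D` of dimension `r` is killed by `r` distinct Taylor–Wiles primes
`q ≡ 1 mod p^{n+1}`.

Proof: induction on the number `i` of primes already chosen, carrying a subspace `W ≤ D` of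
dimension `≤ r - i` which contains every class of `D` locally trivial at the chosen primes.  If
`W ≠ 0`, pick `0 ≠ c ∈ W`; `exists_prime_not_locTrivAt` gives a new prime `ℓ` at which `c` is not
locally trivial, and `W ⊓ locSub A` (for a place `A` over `ℓ`) is strictly smaller.  If `W = 0`
pad with any further Taylor–Wiles prime.
-/

set_option autoImplicit false

open Polynomial IsLocalRing
open scoped Pointwise

noncomputable section

namespace Fermat.Agent.S56.H956

open Fermat.Agent.S56

section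

variable (hP3 : TWElementStatement)
  (hCheb : Fermat.Agent.Lib.Cheb.Spec.FrobeniusDivisionStatement)
  {𝒪 : Type} [CommRing 𝒪] [IsDomain 𝒪] [IsDiscreteValuationRing 𝒪]
  [IsAdicComplete (maximalIdeal 𝒪) 𝒪] [Finite (ResidueField 𝒪)]
  {p : ℕ} {ρbar : ResidualGaloisRep (ResidueField 𝒪)} {S Smin : Finset ℕ}

include hP3 hCheb in
/-- The induction: `i` Taylor–Wiles primes cutting `D` down to dimension `≤ r - i`. -/
theorem exists_finset_cut (H : Hyp 𝒪 p ρbar S Smin)
    (D : Submodule (ResidueField 𝒪) (GQ → Module.End (ResidueField 𝒪) ρbar.V))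
    (hD : IsDualFrame ρbar p D) (n : ℕ) (i : ℕ) :
    ∃ (Q : Finset ℕ) (W : Submodule (ResidueField 𝒪) (GQ → Module.End (ResidueField 𝒪) ρbar.V)),
      Q.card = i ∧
      (∀ q ∈ Q, q.Prime ∧ q ∉ S ∧ p ^ (n + 1) ∣ q - 1 ∧
        ∀ P : ValuationSubring Qb, P.LiesOverPrime q → ∀ φ : GQ, P.IsFrobeniusAt φ q →
          ∃ α β : ResidueField 𝒪, α ≠ β ∧
            LinearMap.charpoly (ρbar.ρ φ) = (X - C α) * (X - C β)) ∧
      W ≤ D ∧
      Module.finrank (ResidueField 𝒪) W ≤ Module.finrank (ResidueField 𝒪) D - i ∧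
      ∀ c ∈ D, (∀ q ∈ Q, LocTrivAt ρbar p q c) → c ∈ W := by
  have : CharP (ResidueField 𝒪) p := charP_residueField H.hp H.hp𝒪
  have hp0 : p ≠ 0 := H.hp.ne_zero
  have hDfin : Module.Finite (ResidueField 𝒪) D := hD.finite
  induction i with
  | zero =>
    exact ⟨∅, D, Finset.card_empty, fun q hq => absurd hq (Finset.notMem_empty q), le_rfl,
      le_rfl, fun c hc _ => hc⟩
  | succ i ih =>
    obtain ⟨Q, W, hcard, hgood, hWD, hrank, hW⟩ := ih
    by_cases hbot : W = ⊥
    · -- pad
      obtain ⟨ℓ, hℓ, hℓS, hℓQ, hdvd, hfrob⟩ := exists_prime_pad hP3 hCheb H n Q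
      refine ⟨insert ℓ Q, ⊥, ?_, ?_, bot_le, ?_, ?_⟩
      · rw [Finset.card_insert_of_notMem hℓQ, hcard]
      · intro q hq
        rcases Finset.mem_insert.mp hq with rfl | hq
        · exact ⟨hℓ, hℓS, hdvd, hfrob⟩
        · exact hgood q hq
      · rw [finrank_bot]
        exact Nat.zero_le _
      · intro c hc hloc
        rw [← hbot]
        exact hW c hc (fun q hq => hloc q (Finset.mem_insert_of_mem hq))
    · -- cut
      obtain ⟨c, hcW, hc0⟩ := Submodule.exists_mem_ne_zero_of_ne_bot hbot
      have hcD : c ∈ D := hWD hcW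
      have hcc : IsTwCocycle ρbar p c := hD.isTwCocycle c hcD
      have hnc : ¬ IsTwCoboundary ρbar p c := fun h => hc0 (hD.inj c hcD h)
      obtain ⟨ℓ, hℓ, hℓS, hℓQ, hdvd, hfrob, hnloc⟩ :=
        exists_prime_not_locTrivAt hP3 hCheb H n Q hcc hnc
      obtain ⟨A, hA⟩ := Fermat.Agent.S54.exists_valuationSubring_liesOver ℓ hℓ
      have hWfin : Module.Finite (ResidueField 𝒪) W := Submodule.finiteDimensional_of_le hWD
      have hlt : W ⊓ locSub ρbar p hp0 A < W := by
        refine lt_of_le_of_ne inf_le_left (fun heq => hnloc ?_)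
        have hmem : c ∈ W ⊓ locSub ρbar p hp0 A := by
          rw [heq]
          exact hcW
        obtain ⟨m, hm⟩ := hmem.2
        exact ⟨A, hA, m, hm⟩
      have hrk := Submodule.finrank_lt_finrank_of_lt hlt
      refine ⟨insert ℓ Q, W ⊓ locSub ρbar p hp0 A, ?_, ?_, inf_le_left.trans hWD, ?_, ?_⟩
      · rw [Finset.card_insert_of_notMem hℓQ, hcard]
      · intro q hq
        rcases Finset.mem_insert.mp hq with rfl | hq
        · exact ⟨hℓ, hℓS, hdvd, hfrob⟩
        · exact hgood q hq
      · omega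
      · intro c' hc' hloc
        refine ⟨hW c' hc' (fun q hq => hloc q (Finset.mem_insert_of_mem hq)), ?_⟩
        exact (locTrivAt_iff hp0 (hD.isTwCocycle c' hc') hℓ hA).mp
          (hloc ℓ (Finset.mem_insert_self ℓ Q))

end

/-- **(TWP-of)** Taylor–Wiles primes from the Taylor–Wiles element and Frobenius density. -/
theorem twPrimesOfElement : TWPrimesOfElementStatement := by
  intro hP3 hCheb 𝒪 _ _ _ _ _ p ρbar S Smin H D hD n
  have hDfin : Module.Finite (ResidueField 𝒪) D := hD.finite
  obtain ⟨Q, W, hcard, hgood, hWD, hrank, hW⟩ :=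
    exists_finset_cut hP3 hCheb H D hD n (Module.finrank (ResidueField 𝒪) D)
  have hWfin : Module.Finite (ResidueField 𝒪) W := Submodule.finiteDimensional_of_le hWD
  have hWbot : W = ⊥ := by
    rw [Nat.sub_self, Nat.le_zero] at hrank
    exact Submodule.finrank_eq_zero.mp hrank
  have himg : Finset.univ.image (Q.orderEmbOfFin hcard) = Q :=
    Finset.image_orderEmbOfFin_univ Q hcard
  refine ⟨Q.orderEmbOfFin hcard, (Q.orderEmbOfFin hcard).injective, fun i => ?_, fun i => ?_,
    ?_⟩
  · obtain ⟨h1, h2, h3, -⟩ := hgood _ (Finset.orderEmbOfFin_mem Q hcard i)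
    exact ⟨h1, h2, h3⟩
  · exact (hgood _ (Finset.orderEmbOfFin_mem Q hcard i)).2.2.2
  · rw [himg]
    intro c hc hloc
    have := hW c hc hloc
    rw [hWbot] at this
    exact (Submodule.mem_bot _).mp this

end Fermat.Agent.S56.H956

end
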