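import Fermat.Agent.S56.Spec
import Fermat.Agent.Lib.Cheb.H476.FrobConj

/-!
# S56 / TWP — twisted cocycles: cyclotomic exponents, conjugation of local triviality (helper956)

* `eps k p σ` — the mod `p` cyclotomic character of `σ`, as an element of `k` (`CharP k p`);
* `tw ρbar p σ m = eps σ • ρ̄(σ) m ρ̄(σ)⁻¹` — the twisted adjoint action;
* `isTwCoboundaryOn_conj` — a global twisted cocycle which is a coboundary on `D_A` is a
  coboundary on `D_{g • A}`;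
* `locTrivAt_iff` — local triviality at `ℓ` can be tested on ANY valuation subring over `ℓ`;
* `locSub` — the `k`-subspace of functions which are coboundaries on `D_A`.
-/

set_option autoImplicit false

open Polynomial
open scoped Pointwise

noncomputable section

namespace Fermat.Agent.S56.H956

open Fermat.Agent.S56

/-! ### Cyclotomic exponents -/

theorem exists_isPrimitiveRoot_Qb (m : ℕ) (hm : m ≠ 0) : ∃ ζ : Qb, IsPrimitiveRoot ζ m := by
  have : NeZero (m : ℚ) := ⟨by exact_mod_cast hm⟩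
  exact HasEnoughRootsOfUnity.exists_primitiveRoot Qb m

theorem isCycExp_one (p : ℕ) : IsCycExp p 1 1 := fun μ _ => by
  rw [pow_one]
  rfl

theorem isCycExp_mul {p : ℕ} {σ τ : GQ} {a b : ℕ} (hσ : IsCycExp p σ a)
    (hτ : IsCycExp p τ b) : IsCycExp p (σ * τ) (a * b) := by
  intro μ hμ
  rw [AlgEquiv.mul_apply, hτ μ hμ, map_pow, hσ μ hμ, ← pow_mul]

theorem exists_isCycExp {p : ℕ} (hp : p ≠ 0) (σ : GQ) : ∃ a, IsCycExp p σ a := by
  obtain ⟨ζ, hζ⟩ := exists_isPrimitiveRoot_Qb p hp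
  have : NeZero p := ⟨hp⟩
  have h1 : (σ ζ) ^ p = 1 := by rw [← map_pow, hζ.pow_eq_one, map_one]
  obtain ⟨a, -, ha⟩ := hζ.eq_pow_of_pow_eq_one h1
  refine ⟨a, fun μ hμ => ?_⟩
  obtain ⟨i, -, rfl⟩ := hζ.eq_pow_of_pow_eq_one hμ
  rw [map_pow, ← ha, ← pow_mul, ← pow_mul, mul_comm]

theorem natCast_eq_of_isCycExp (k : Type*) [Field k] {p : ℕ} [CharP k p] (hp : p ≠ 0)
    {σ : GQ} {a b : ℕ} (ha : IsCycExp p σ a) (hb : IsCycExp p σ b) : (a : k) = (b : k) := by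
  obtain ⟨ζ, hζ⟩ := exists_isPrimitiveRoot_Qb p hp
  have h1 : ζ ^ a = ζ ^ b := (ha ζ hζ.pow_eq_one).symm.trans (hb ζ hζ.pow_eq_one)
  have h2 : a ≡ b [MOD p] := by
    have h3 : IsOfFinOrder ζ := isOfFinOrder_iff_pow_eq_one.mpr ⟨p, Nat.pos_of_ne_zero hp,
      hζ.pow_eq_one⟩
    have := h3.pow_eq_pow_iff_modEq.mp h1
    rwa [← hζ.eq_orderOf] at this
  exact (CharP.natCast_eq_natCast k p).mpr h2

/-- The mod `p` cyclotomic character, with values in `k`. -/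
def eps (k : Type*) [Field k] (p : ℕ) (σ : GQ) : k :=
  open Classical in if h : ∃ a, IsCycExp p σ a then ((Classical.choose h : ℕ) : k) else 0

section eps

variable (k : Type*) [Field k] {p : ℕ} [CharP k p]

theorem eps_eq (hp : p ≠ 0) {σ : GQ} {a : ℕ} (ha : IsCycExp p σ a) : eps k p σ = (a : k) := by
  have h : ∃ a, IsCycExp p σ a := ⟨a, ha⟩
  unfold eps
  rw [dif_pos h]
  exact natCast_eq_of_isCycExp k hp (Classical.choose_spec h) ha

theorem eps_one (hp : p ≠ 0) : eps k p 1 = 1 := by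
  rw [eps_eq k hp (isCycExp_one p), Nat.cast_one]

theorem eps_mul (hp : p ≠ 0) (σ τ : GQ) : eps k p (σ * τ) = eps k p σ * eps k p τ := by
  obtain ⟨a, ha⟩ := exists_isCycExp hp σ
  obtain ⟨b, hb⟩ := exists_isCycExp hp τ
  rw [eps_eq k hp (isCycExp_mul ha hb), eps_eq k hp ha, eps_eq k hp hb, Nat.cast_mul]

theorem eps_mul_inv (hp : p ≠ 0) (σ : GQ) : eps k p σ * eps k p σ⁻¹ = 1 := by
  rw [← eps_mul k hp, mul_inv_cancel, eps_one k hp]

theorem eps_inv_mul (hp : p ≠ 0) (σ : GQ) : eps k p σ⁻¹ * eps k p σ = 1 := by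
  rw [← eps_mul k hp, inv_mul_cancel, eps_one k hp]

end eps

/-! ### The twisted adjoint action -/

section tw

variable {k : Type} [Field k] (ρbar : ResidualGaloisRep k) (p : ℕ)

/-- The twisted adjoint action of `G_ℚ` on `End_k V`. -/
def tw (σ : GQ) (m : Module.End k ρbar.V) : Module.End k ρbar.V :=
  eps k p σ • (ρbar.ρ σ * m * ρbar.ρ σ⁻¹)

variable {ρbar p}

theorem rho_mul_rho_inv (σ : GQ) : ρbar.ρ σ * ρbar.ρ σ⁻¹ = 1 := by
  rw [← map_mul, mul_inv_cancel, map_one]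

theorem rho_inv_mul_rho (σ : GQ) : ρbar.ρ σ⁻¹ * ρbar.ρ σ = 1 := by
  rw [← map_mul, inv_mul_cancel, map_one]

theorem trace_conj_rho (σ : GQ) (m : Module.End k ρbar.V) :
    LinearMap.trace k ρbar.V (ρbar.ρ σ * m * ρbar.ρ σ⁻¹) = LinearMap.trace k ρbar.V m := by
  rw [LinearMap.trace_mul_comm, ← mul_assoc, rho_inv_mul_rho, one_mul]

theorem tw_zero (σ : GQ) : tw ρbar p σ 0 = 0 := by
  unfold tw
  rw [mul_zero, zero_mul, smul_zero]

theorem tw_add (σ : GQ) (m m' : Module.End k ρbar.V) :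
    tw ρbar p σ (m + m') = tw ρbar p σ m + tw ρbar p σ m' := by
  unfold tw
  rw [mul_add, add_mul, smul_add]

theorem tw_neg (σ : GQ) (m : Module.End k ρbar.V) :
    tw ρbar p σ (-m) = -tw ρbar p σ m := by
  unfold tw
  rw [mul_neg, neg_mul, smul_neg]

theorem tw_sub (σ : GQ) (m m' : Module.End k ρbar.V) :
    tw ρbar p σ (m - m') = tw ρbar p σ m - tw ρbar p σ m' := by
  rw [sub_eq_add_neg, tw_add, tw_neg, ← sub_eq_add_neg]

theorem tw_smul (σ : GQ) (t : k) (m : Module.End k ρbar.V) :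
    tw ρbar p σ (t • m) = t • tw ρbar p σ m := by
  unfold tw
  rw [mul_smul_comm, smul_mul_assoc, smul_comm]

theorem trace_tw (σ : GQ) (m : Module.End k ρbar.V) :
    LinearMap.trace k ρbar.V (tw ρbar p σ m) = eps k p σ * LinearMap.trace k ρbar.V m := by
  unfold tw
  rw [map_smul, trace_conj_rho, smul_eq_mul]

variable [CharP k p]

theorem twAd_eq_tw (hp : p ≠ 0) {σ : GQ} {a : ℕ} (ha : IsCycExp p σ a)
    (m : Module.End k ρbar.V) : twAd ρbar σ a m = tw ρbar p σ m := by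
  unfold twAd tw
  rw [eps_eq k hp ha]

theorem tw_one (hp : p ≠ 0) (m : Module.End k ρbar.V) : tw ρbar p 1 m = m := by
  unfold tw
  rw [eps_one k hp, one_smul, inv_one, map_one, one_mul, mul_one]

theorem tw_mul (hp : p ≠ 0) (σ τ : GQ) (m : Module.End k ρbar.V) :
    tw ρbar p (σ * τ) m = tw ρbar p σ (tw ρbar p τ m) := by
  unfold tw
  rw [eps_mul k hp, mul_inv_rev, map_mul, map_mul, mul_smul_comm, smul_mul_assoc, smul_smul]
  simp only [mul_assoc]

/-! ### Cocycles -/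

variable {c : GQ → Module.End k ρbar.V}

theorem map_mul_of_isTwCocycle (hp : p ≠ 0) (hc : IsTwCocycle ρbar p c) (σ τ : GQ) :
    c (σ * τ) = c σ + tw ρbar p σ (c τ) := by
  obtain ⟨a, ha⟩ := exists_isCycExp hp σ
  rw [hc.map_mul σ τ a ha, twAd_eq_tw hp ha]

theorem map_one_of_isTwCocycle (hp : p ≠ 0) (hc : IsTwCocycle ρbar p c) : c 1 = 0 := by
  have h := map_mul_of_isTwCocycle hp hc 1 1
  rw [mul_one, tw_one hp] at h
  exact left_eq_add.mp h

theorem tw_map_inv_of_isTwCocycle (hp : p ≠ 0) (hc : IsTwCocycle ρbar p c) (g : GQ) :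
    tw ρbar p g (c g⁻¹) = -c g := by
  have h := map_mul_of_isTwCocycle hp hc g g⁻¹
  rw [mul_inv_cancel, map_one_of_isTwCocycle hp hc] at h
  exact (neg_eq_of_add_eq_zero_right h.symm).symm

theorem isTwCoboundaryOn_iff (hp : p ≠ 0) (H : Subgroup GQ) (m : Module.End k ρbar.V) :
    IsTwCoboundaryOn ρbar p H c m ↔
      LinearMap.trace k ρbar.V m = 0 ∧ ∀ σ ∈ H, c σ = tw ρbar p σ m - m := by
  constructor
  · rintro ⟨h1, h2⟩
    refine ⟨h1, fun σ hσ => ?_⟩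
    obtain ⟨a, ha⟩ := exists_isCycExp hp σ
    rw [h2 σ hσ a ha, twAd_eq_tw hp ha]
  · rintro ⟨h1, h2⟩
    refine ⟨h1, fun σ hσ a ha => ?_⟩
    rw [h2 σ hσ, twAd_eq_tw hp ha]

/-- **Conjugation of local triviality.**  A global twisted cocycle which is the coboundary of `m`
on `D_A` is the coboundary of `g · m - c(g)` on `D_{g • A}`. -/
theorem isTwCoboundaryOn_conj (hp : p ≠ 0) (hc : IsTwCocycle ρbar p c) (g : GQ)
    (A : ValuationSubring Qb) {m : Module.End k ρbar.V}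
    (hm : IsTwCoboundaryOn ρbar p (A.decompositionSubgroup ℚ) c m) :
    IsTwCoboundaryOn ρbar p ((g • A).decompositionSubgroup ℚ) c (tw ρbar p g m - c g) := by
  rw [isTwCoboundaryOn_iff hp] at hm ⊢
  obtain ⟨hm1, hm2⟩ := hm
  refine ⟨?_, fun σ' hσ' => ?_⟩
  · rw [map_sub, trace_tw, hm1, mul_zero, hc.trace_eq_zero, sub_zero]
  · -- `σ = g⁻¹ σ' g ∈ D_A`
    have hσ : g⁻¹ * σ' * g⁻¹⁻¹ ∈ A.decompositionSubgroup ℚ := by
      have h := Fermat.Agent.Lib.Cheb.H476.conj_mem_decomposition g⁻¹ hσ'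
      rwa [inv_smul_smul] at h
    rw [inv_inv] at hσ
    have hcσ := hm2 _ hσ
    have e1 : σ' = g * ((g⁻¹ * σ' * g) * g⁻¹) := by group
    have h1 : c σ' = c g + tw ρbar p g (c ((g⁻¹ * σ' * g) * g⁻¹)) := by
      conv_lhs => rw [e1]
      exact map_mul_of_isTwCocycle hp hc _ _
    have h2 := map_mul_of_isTwCocycle hp hc (g⁻¹ * σ' * g) g⁻¹
    have h3 : tw ρbar p g (tw ρbar p (g⁻¹ * σ' * g) (c g⁻¹)) = -tw ρbar p σ' (c g) := by
      rw [← tw_mul hp, ← tw_neg, ← tw_map_inv_of_isTwCocycle hp hc g, ← tw_mul hp]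
      congr 1
      group
    have h4 : tw ρbar p g (tw ρbar p (g⁻¹ * σ' * g) m) = tw ρbar p σ' (tw ρbar p g m) := by
      rw [← tw_mul hp, ← tw_mul hp]
      congr 1
      group
    rw [h1, h2, hcσ, tw_add, tw_sub, h3, h4, tw_sub]
    abel

/-- Local triviality of a global twisted cocycle at `ℓ` can be tested on any valuation subring
over `ℓ`. -/
theorem locTrivAt_iff (hp : p ≠ 0) (hc : IsTwCocycle ρbar p c) {ℓ : ℕ} (hℓ : ℓ.Prime)
    {A : ValuationSubring Qb} (hA : A.LiesOverPrime ℓ) :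
    LocTrivAt ρbar p ℓ c ↔
      ∃ m, IsTwCoboundaryOn ρbar p (A.decompositionSubgroup ℚ) c m := by
  constructor
  · rintro ⟨P, hP, m, hm⟩
    obtain ⟨g, hg⟩ := Fermat.Agent.Lib.Cheb.H476.exists_smul_eq hℓ hP hA
    have h := isTwCoboundaryOn_conj hp hc g P hm
    rw [hg] at h
    exact ⟨_, h⟩
  · rintro ⟨m, hm⟩
    exact ⟨A, hA, m, hm⟩

variable (ρbar p)

/-- The subspace of functions `G_ℚ → End V` which are twisted coboundaries on `D_A`. -/
def locSub (hp : p ≠ 0) (A : ValuationSubring Qb) :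
    Submodule k (GQ → Module.End k ρbar.V) where
  carrier := {c | ∃ m, IsTwCoboundaryOn ρbar p (A.decompositionSubgroup ℚ) c m}
  zero_mem' := by
    refine ⟨0, (isTwCoboundaryOn_iff hp _ _).mpr ⟨map_zero _, fun σ _ => ?_⟩⟩
    rw [tw_zero, sub_zero]
    rfl
  add_mem' := by
    rintro c₁ c₂ ⟨m₁, h₁⟩ ⟨m₂, h₂⟩
    rw [isTwCoboundaryOn_iff hp] at h₁ h₂
    refine ⟨m₁ + m₂, (isTwCoboundaryOn_iff hp _ _).mpr ⟨?_, fun σ hσ => ?_⟩⟩
    · rw [map_add, h₁.1, h₂.1, add_zero]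
    · rw [Pi.add_apply, h₁.2 σ hσ, h₂.2 σ hσ, tw_add]
      abel
  smul_mem' := by
    rintro t c₁ ⟨m₁, h₁⟩
    rw [isTwCoboundaryOn_iff hp] at h₁
    refine ⟨t • m₁, (isTwCoboundaryOn_iff hp _ _).mpr ⟨?_, fun σ hσ => ?_⟩⟩
    · rw [map_smul, h₁.1, smul_zero]
    · rw [Pi.smul_apply, h₁.2 σ hσ, tw_smul, smul_sub]

theorem mem_locSub (hp : p ≠ 0) (A : ValuationSubring Qb) (c : GQ → Module.End k ρbar.V) :
    c ∈ locSub ρbar p hp A ↔
      ∃ m, IsTwCoboundaryOn ρbar p (A.decompositionSubgroup ℚ) c m :=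
  Iff.rfl

end tw

end Fermat.Agent.S56.H956

end
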