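import Mathlib

/-!
# S56 / TWP — linear algebra: distinct eigenvalues pass from a power to the element (helper956)

If `g = f ^ j` has two distinct eigenvalues in `k` (on a two-dimensional space) and the
characteristic polynomial of `f` splits as `(X - a) (X - b)`, then `a ≠ b`.
-/

set_option autoImplicit false

open Polynomial

namespace Fermat.Agent.S56.H956

variable {k : Type*} [Field k] {V : Type*} [AddCommGroup V] [Module k V] [Module.Finite k V]

/-- A root of the characteristic polynomial of `g` is a root of every polynomial killing `g`. -/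
theorem isRoot_of_isRoot_charpoly_of_aeval_eq_zero (g : Module.End k V) (P : k[X])
    (hP : aeval g P = 0) {α : k} (hα : (LinearMap.charpoly g).IsRoot α) : P.IsRoot α := by
  have hev : g.HasEigenvalue α := (Module.End.hasEigenvalue_iff_isRoot_charpoly g α).mpr hα
  obtain ⟨v, hv⟩ := hev.exists_hasEigenvector
  have h1 := Module.End.aeval_apply_of_hasEigenvector (p := P) hv
  rw [hP, LinearMap.zero_apply] at h1
  rcases smul_eq_zero.mp h1.symm with h | h
  · exact h
  · exact absurd h hv.2

/-- If `charpoly f = (X - a)^2` then `(f ^ j - a ^ j)^2 = 0`. -/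
theorem aeval_pow_sub_sq_eq_zero (f : Module.End k V) (a : k)
    (hf : LinearMap.charpoly f = (X - C a) * (X - C a)) (j : ℕ) :
    aeval (f ^ j) ((X - C (a ^ j)) * (X - C (a ^ j)) : k[X]) = 0 := by
  have hCH : aeval f ((X - C a) * (X - C a) : k[X]) = 0 := by
    rw [← hf]
    exact LinearMap.aeval_self_charpoly f
  obtain ⟨h, hh⟩ : (X - C a : k[X]) ∣ X ^ j - C (a ^ j) := by
    rw [C_pow]
    exact sub_dvd_pow_sub_pow X (C a) j
  have h2 : aeval (f ^ j) (X - C (a ^ j) : k[X]) = aeval f (X ^ j - C (a ^ j) : k[X]) := by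
    simp
  rw [map_mul, h2, hh, ← map_mul]
  have h3 : ((X - C a) * h * ((X - C a) * h) : k[X]) = (X - C a) * (X - C a) * (h * h) := by
    ring
  rw [h3, map_mul, hCH, zero_mul]

/-- **Distinct eigenvalues descend along powers.** -/
theorem ne_of_pow_charpoly (f : Module.End k V) (j : ℕ) {a b α β : k}
    (hf : LinearMap.charpoly f = (X - C a) * (X - C b))
    (hg : LinearMap.charpoly (f ^ j) = (X - C α) * (X - C β)) (hαβ : α ≠ β) : a ≠ b := by
  rintro rfl
  have h0 := aeval_pow_sub_sq_eq_zero f a hf j
  have hα : (LinearMap.charpoly (f ^ j)).IsRoot α := by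
    rw [hg, IsRoot.def, eval_mul, eval_sub, eval_X, eval_C, sub_self, zero_mul]
  have hβ : (LinearMap.charpoly (f ^ j)).IsRoot β := by
    rw [hg, IsRoot.def, eval_mul, eval_sub, eval_X, eval_C, eval_sub, eval_X, eval_C, sub_self,
      mul_zero]
  have h1 := isRoot_of_isRoot_charpoly_of_aeval_eq_zero (f ^ j) _ h0 hα
  have h2 := isRoot_of_isRoot_charpoly_of_aeval_eq_zero (f ^ j) _ h0 hβ
  rw [IsRoot.def, eval_mul, eval_sub, eval_X, eval_C, mul_self_eq_zero, sub_eq_zero] at h1 h2
  exact hαβ (h1.trans h2.symm)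

end Fermat.Agent.S56.H956
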