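import Fermat.Agent.S56.H956.TWPCocycle
import Fermat.Agent.S56.H956.TWPLinAlg
import Fermat.Agent.S55.Bridge.Cyclo

/-!
# S56 / TWP — one Taylor–Wiles prime from one Taylor–Wiles element (helper956)

`exists_prime_of_element`: Frobenius' density theorem (`FrobeniusDivisionStatement`) turns an
element `σ` fixing `μ_{p^{n+1}}` with distinct `ρ̄`-eigenvalues into a prime `ℓ ≡ 1 mod p^{n+1}`,
outside any given finite set, all of whose Frobenius elements have distinct eigenvalues, together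
with an element `τ` of a decomposition group over `ℓ` which agrees with `σ` on a prescribed finite
extension `L`, on `ρ̄` and on `μ_{p^{n+1}}`.

`exists_prime_not_locTrivAt`: for a global twisted cocycle `c` which is not a coboundary, the
Taylor–Wiles element of (P3) gives such a prime at which `c` is not locally trivial.
-/

set_option autoImplicit false

open Polynomial IsLocalRing
open scoped Pointwise

noncomputable section

namespace Fermat.Agent.S56.H956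

open Fermat.Agent.S56

/-! ### The field of `m`-th roots of unity -/

/-- The field generated by the `m`-th roots of unity. -/
def cycField (m : ℕ) : IntermediateField ℚ Qb :=
  IntermediateField.adjoin ℚ {x : Qb | x ^ m = 1}

theorem mem_cycField {m : ℕ} {x : Qb} (hx : x ^ m = 1) : x ∈ cycField m :=
  IntermediateField.subset_adjoin ℚ _ hx

theorem finiteDimensional_cycField {m : ℕ} (hm : m ≠ 0) :
    FiniteDimensional ℚ (cycField m) := by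
  have hfin : Set.Finite {x : Qb | x ^ m = 1} := by
    have : {x : Qb | x ^ m = 1} = ↑(Polynomial.nthRootsFinset m (1 : Qb)) := by
      ext x
      simp [Polynomial.mem_nthRootsFinset (Nat.pos_of_ne_zero hm)]
    rw [this]
    exact Finset.finite_toSet _
  have : Finite {x : Qb | x ^ m = 1} := hfin.to_subtype
  exact IntermediateField.finiteDimensional_adjoin
    (fun x _ => ((AlgebraicClosure.isAlgebraic ℚ).isAlgebraic x).isIntegral)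

/-! ### Frobenius elements fixing roots of unity -/

/-- If a Frobenius element at `ℓ ≠ p` fixes the `p^{n+1}`-th roots of unity, then
`ℓ ≡ 1 mod p^{n+1}`. -/
theorem dvd_sub_one_of_isFrobeniusAt {p ℓ : ℕ} (hp : p.Prime) (hℓ : ℓ.Prime) (hne : ℓ ≠ p)
    (n : ℕ) {A : ValuationSubring Qb} (hA : A.LiesOverPrime ℓ) {τ : GQ}
    (hτ : A.IsFrobeniusAt τ ℓ) (hfix : ∀ μ : Qb, μ ^ p ^ (n + 1) = 1 → τ μ = μ) :
    p ^ (n + 1) ∣ ℓ - 1 := by
  have hm0 : p ^ (n + 1) ≠ 0 := pow_ne_zero _ hp.ne_zero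
  obtain ⟨ζ, hζ⟩ := exists_isPrimitiveRoot_Qb (p ^ (n + 1)) hm0
  have hpv : A.valuation (p : Qb) = 1 :=
    Fermat.Agent.S55.Bridge.val_prime_eq_one hA hℓ hp hne
  have hmv : A.valuation ((p ^ (n + 1) : ℕ) : Qb) = 1 := by
    rw [Nat.cast_pow, map_pow, hpv, one_pow]
  have hζA : ζ ∈ A := by
    rw [← A.valuation_le_one_iff]
    have h : (A.valuation ζ) ^ (p ^ (n + 1)) = 1 := by
      rw [← map_pow, hζ.pow_eq_one, map_one]
    exact ((pow_eq_one_iff.1 h).resolve_right hm0).le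
  have h1 : τ ζ - ζ ^ ℓ ∈ A.nonunits :=
    ((Fermat.Agent.Lib.Cheb.H476.isFrobeniusAt_iff A τ ℓ).mp hτ).2 ζ hζA
  rw [hfix ζ hζ.pow_eq_one] at h1
  have h2 : ζ ^ ℓ = ζ := by
    by_contra hne'
    have hζℓ : (ζ ^ ℓ) ^ (p ^ (n + 1)) = 1 := by
      rw [← pow_mul, mul_comm, pow_mul, hζ.pow_eq_one, one_pow]
    have h3 := Fermat.Agent.S55.Bridge.val_sub_roots_eq_one (A := A) hm0 hmv hζ.pow_eq_one hζℓ
      (Ne.symm hne')
    rw [ValuationSubring.mem_nonunits_iff, h3] at h1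
    exact lt_irrefl _ h1
  have h4 : ζ ^ (ℓ - 1) = 1 := by
    have h5 : ζ ^ (ℓ - 1) * ζ = 1 * ζ := by
      rw [← pow_succ, Nat.sub_add_cancel hℓ.one_le, h2, one_mul]
    exact mul_right_cancel₀ (hζ.ne_zero hm0) h5
  exact (hζ.pow_eq_one_iff_dvd _).mp h4

/-! ### Factoring through a finite level -/

theorem rho_eq_of_eqOn {k : Type} [Field k] (ρbar : ResidualGaloisRep k)
    {L : IntermediateField ℚ Qb}
    (hL : ∀ σ : GQ, (∀ x ∈ L, σ x = x) → ρbar.ρ σ = 1) {g h : GQ}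
    (hgh : ∀ x ∈ L, g x = h x) : ρbar.ρ g = ρbar.ρ h := by
  have h1 : ρbar.ρ (h⁻¹ * g) = 1 := hL _ (fun x hx => by
    rw [AlgEquiv.mul_apply, hgh x hx]
    exact h.symm_apply_apply x)
  have h2 : g = h * (h⁻¹ * g) := by group
  rw [h2, map_mul, h1, mul_one]

theorem charP_residueField {𝒪 : Type} [CommRing 𝒪] [IsLocalRing 𝒪] {p : ℕ} (hp : p.Prime)
    (hp𝒪 : (p : 𝒪) ∈ maximalIdeal 𝒪) : CharP (ResidueField 𝒪) p := by
  rw [CharP.charP_iff_prime_eq_zero hp]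
  have h : residue 𝒪 (p : 𝒪) = 0 := (residue_eq_zero_iff _).mpr hp𝒪
  rwa [map_natCast] at h

/-! ### One prime from one element -/

theorem pow_apply_eq_self {σ : GQ} {μ : Qb} (h : σ μ = μ) (i : ℕ) : (σ ^ i) μ = μ := by
  induction i with
  | zero => rw [pow_zero]; rfl
  | succ i ih => rw [pow_succ, AlgEquiv.mul_apply, h, ih]

/-- **One Taylor–Wiles prime from one Taylor–Wiles element.** -/
theorem exists_prime_of_element
    (hCheb : Fermat.Agent.Lib.Cheb.Spec.FrobeniusDivisionStatement)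
    {𝒪 : Type} [CommRing 𝒪] [IsDomain 𝒪] [IsDiscreteValuationRing 𝒪]
    {p : ℕ} {ρbar : ResidualGaloisRep (ResidueField 𝒪)} {S Smin : Finset ℕ}
    (H : Hyp 𝒪 p ρbar S Smin) (n : ℕ) (T : Finset ℕ) (L : IntermediateField ℚ Qb)
    (hL : FiniteDimensional ℚ L) (σ : GQ)
    (hσμ : ∀ μ : Qb, μ ^ p ^ (n + 1) = 1 → σ μ = μ)
    (hσe : ∃ α β : ResidueField 𝒪, α ≠ β ∧
      LinearMap.charpoly (ρbar.ρ σ) = (X - C α) * (X - C β)) :
    ∃ ℓ : ℕ, ℓ.Prime ∧ ℓ ∉ S ∧ ℓ ∉ T ∧ p ^ (n + 1) ∣ ℓ - 1 ∧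
      (∀ P : ValuationSubring Qb, P.LiesOverPrime ℓ → ∀ φ : GQ, P.IsFrobeniusAt φ ℓ →
        ∃ α β : ResidueField 𝒪, α ≠ β ∧
          LinearMap.charpoly (ρbar.ρ φ) = (X - C α) * (X - C β)) ∧
      ∃ (A : ValuationSubring Qb) (τ : GQ), A.LiesOverPrime ℓ ∧
        τ ∈ A.decompositionSubgroup ℚ ∧ (∀ x ∈ L, τ x = σ x) ∧ ρbar.ρ τ = ρbar.ρ σ ∧
        (∀ μ : Qb, μ ^ p ^ (n + 1) = 1 → τ μ = μ) := by
  obtain ⟨Lρ, hLρ, hρ⟩ := ρbar.factorsThroughFiniteLevel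
  have hm0 : p ^ (n + 1) ≠ 0 := pow_ne_zero _ H.hp.ne_zero
  have hcyc := finiteDimensional_cycField hm0
  -- the level
  have hE : FiniteDimensional ℚ ↥(Lρ ⊔ L ⊔ cycField (p ^ (n + 1))) := inferInstance
  have hLρE : Lρ ≤ Lρ ⊔ L ⊔ cycField (p ^ (n + 1)) := le_sup_left.trans le_sup_left
  have hLE : L ≤ Lρ ⊔ L ⊔ cycField (p ^ (n + 1)) := le_sup_right.trans le_sup_left
  have hcE : cycField (p ^ (n + 1)) ≤ Lρ ⊔ L ⊔ cycField (p ^ (n + 1)) := le_sup_right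
  obtain ⟨ℓ, A, τ, k, j, hℓ, hℓS, hA, hτ, -, hτk, hτj⟩ :=
    hCheb (Lρ ⊔ L ⊔ cycField (p ^ (n + 1))) hE σ (S ∪ T ∪ {p})
  have hℓS' : ℓ ∉ S := fun h => hℓS (Finset.mem_union_left _ (Finset.mem_union_left _ h))
  have hℓT : ℓ ∉ T := fun h => hℓS (Finset.mem_union_left _ (Finset.mem_union_right _ h))
  have hℓp : ℓ ≠ p := fun h => hℓS (Finset.mem_union_right _ (Finset.mem_singleton.mpr h))
  -- `ρ̄`
  have hρj : ρbar.ρ (τ ^ j) = ρbar.ρ σ :=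
    rho_eq_of_eqOn ρbar hρ (fun x hx => hτj x (hLρE hx))
  -- roots of unity
  have hτμ : ∀ μ : Qb, μ ^ p ^ (n + 1) = 1 → τ μ = μ := by
    intro μ hμ
    rw [hτk μ (hcE (mem_cycField hμ))]
    exact pow_apply_eq_self (hσμ μ hμ) k
  have hτjμ : ∀ μ : Qb, μ ^ p ^ (n + 1) = 1 → (τ ^ j) μ = μ := by
    intro μ hμ
    rw [hτj μ (hcE (mem_cycField hμ))]
    exact hσμ μ hμ
  -- the congruence
  have hdvd : p ^ (n + 1) ∣ ℓ - 1 := dvd_sub_one_of_isFrobeniusAt H.hp hℓ hℓp n hA hτ hτμ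
  -- `ρ̄` is unramified at `ℓ`
  have hur : ρbar.IsUnramifiedAt ℓ := by
    by_contra hnot
    exact hℓS' (H.hSmin ((H.hmin ℓ hℓ hℓp).mpr hnot))
  -- distinct eigenvalues of `ρ̄ τ`
  obtain ⟨α, β, hαβ, hσc⟩ := hσe
  obtain ⟨a, b, hab⟩ := H.hsplit τ
  have hne : a ≠ b := by
    refine ne_of_pow_charpoly (ρbar.ρ τ) j hab ?_ hαβ
    rw [← map_pow, hρj]
    exact hσc
  refine ⟨ℓ, hℓ, hℓS', hℓT, hdvd, fun P hP φ hφ => ⟨a, b, hne, ?_⟩,
    A, τ ^ j, hA, pow_mem hτ.mem_decompositionSubgroup j, fun x hx => hτj x (hLE hx), hρj, hτjμ⟩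
  rw [Fermat.Agent.Lib.Cheb.H476.charpoly_eq_of_isFrobeniusAt ρbar hℓ hur hA hP hτ hφ]
  exact hab

/-- **One Taylor–Wiles prime detecting a class.**  For a global twisted cocycle `c` which is not a
coboundary, there is a Taylor–Wiles prime `ℓ ≡ 1 mod p^{n+1}` outside `S ∪ T` at which `c` is not
locally trivial. -/
theorem exists_prime_not_locTrivAt (hP3 : TWElementStatement)
    (hCheb : Fermat.Agent.Lib.Cheb.Spec.FrobeniusDivisionStatement)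
    {𝒪 : Type} [CommRing 𝒪] [IsDomain 𝒪] [IsDiscreteValuationRing 𝒪]
    [IsAdicComplete (maximalIdeal 𝒪) 𝒪] [Finite (ResidueField 𝒪)]
    {p : ℕ} {ρbar : ResidualGaloisRep (ResidueField 𝒪)} {S Smin : Finset ℕ}
    (H : Hyp 𝒪 p ρbar S Smin) (n : ℕ) (T : Finset ℕ)
    {c : GQ → Module.End (ResidueField 𝒪) ρbar.V} (hc : IsTwCocycle ρbar p c)
    (hnc : ¬ IsTwCoboundary ρbar p c) :
    ∃ ℓ : ℕ, ℓ.Prime ∧ ℓ ∉ S ∧ ℓ ∉ T ∧ p ^ (n + 1) ∣ ℓ - 1 ∧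
      (∀ P : ValuationSubring Qb, P.LiesOverPrime ℓ → ∀ φ : GQ, P.IsFrobeniusAt φ ℓ →
        ∃ α β : ResidueField 𝒪, α ≠ β ∧
          LinearMap.charpoly (ρbar.ρ φ) = (X - C α) * (X - C β)) ∧
      ¬ LocTrivAt ρbar p ℓ c := by
  have : CharP (ResidueField 𝒪) p := charP_residueField H.hp H.hp𝒪
  have hp0 : p ≠ 0 := H.hp.ne_zero
  obtain ⟨σ, hσμ, hσe, hσc⟩ := (hP3 𝒪 p ρbar S Smin H).1 c hc hnc n
  obtain ⟨Lc, hLc, hcL⟩ := hc.level
  obtain ⟨ℓ, hℓ, hℓS, hℓT, hdvd, hfrob, A, τ, hA, hτD, hτL, hτρ, hτμ⟩ :=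
    exists_prime_of_element hCheb H n T Lc hLc σ hσμ hσe
  refine ⟨ℓ, hℓ, hℓS, hℓT, hdvd, hfrob, fun hloc => ?_⟩
  obtain ⟨m, hm⟩ := (locTrivAt_iff hp0 hc hℓ hA).mp hloc
  obtain ⟨hm1, hm2⟩ := hm
  -- `τ` acts trivially on `μ_p`
  have hexp : IsCycExp p τ 1 := by
    intro μ hμ
    rw [pow_one]
    refine hτμ μ ?_
    rw [pow_succ', pow_mul, hμ, one_pow]
  have h1 := hm2 τ hτD 1 hexp
  -- `c τ = c σ`
  have h2 : c τ = c σ := by
    have e : τ = σ * (σ⁻¹ * τ) := by group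
    rw [e]
    refine hcL σ (σ⁻¹ * τ) (fun x hx => ?_)
    rw [AlgEquiv.mul_apply, hτL x hx]
    exact σ.symm_apply_apply x
  -- `ρ̄ τ⁻¹ = ρ̄ σ⁻¹`
  have h3 : ρbar.ρ τ⁻¹ = ρbar.ρ σ⁻¹ := by
    calc ρbar.ρ τ⁻¹ = ρbar.ρ τ⁻¹ * (ρbar.ρ σ * ρbar.ρ σ⁻¹) := by
          rw [rho_mul_rho_inv, mul_one]
      _ = ρbar.ρ τ⁻¹ * ρbar.ρ τ * ρbar.ρ σ⁻¹ := by rw [hτρ, mul_assoc]
      _ = ρbar.ρ σ⁻¹ := by rw [rho_inv_mul_rho, one_mul]
  refine hσc m hm1 ?_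
  rw [← h2, h1]
  unfold twAd
  rw [Nat.cast_one, one_smul, hτρ, h3]

/-- **One more Taylor–Wiles prime** (no class to detect). -/
theorem exists_prime_pad (hP3 : TWElementStatement)
    (hCheb : Fermat.Agent.Lib.Cheb.Spec.FrobeniusDivisionStatement)
    {𝒪 : Type} [CommRing 𝒪] [IsDomain 𝒪] [IsDiscreteValuationRing 𝒪]
    [IsAdicComplete (maximalIdeal 𝒪) 𝒪] [Finite (ResidueField 𝒪)]
    {p : ℕ} {ρbar : ResidualGaloisRep (ResidueField 𝒪)} {S Smin : Finset ℕ}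
    (H : Hyp 𝒪 p ρbar S Smin) (n : ℕ) (T : Finset ℕ) :
    ∃ ℓ : ℕ, ℓ.Prime ∧ ℓ ∉ S ∧ ℓ ∉ T ∧ p ^ (n + 1) ∣ ℓ - 1 ∧
      (∀ P : ValuationSubring Qb, P.LiesOverPrime ℓ → ∀ φ : GQ, P.IsFrobeniusAt φ ℓ →
        ∃ α β : ResidueField 𝒪, α ≠ β ∧
          LinearMap.charpoly (ρbar.ρ φ) = (X - C α) * (X - C β)) := by
  obtain ⟨σ, hσμ, hσe⟩ := (hP3 𝒪 p ρbar S Smin H).2 n
  obtain ⟨ℓ, hℓ, hℓS, hℓT, hdvd, hfrob, -⟩ :=
    exists_prime_of_element hCheb H n T ⊥ inferInstance σ hσμ hσe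
  exact ⟨ℓ, hℓ, hℓS, hℓT, hdvd, hfrob⟩

end Fermat.Agent.S56.H956

end
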