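import Fermat.Agent.S55.PT.BridgeH724
import Fermat.Agent.S55.PT.FinGlobH593

/-!
# Row S56 — BASE: Theorem D (PT vocabulary) from the FROZEN statement S55   (row-lead helper956)

The frozen statement S55 (Prelude vocabulary, `sha₁`, `sha₂`) is available as
`Fermat.Agent.S55.result` as soon as `Fermat/Agent/S55.lean` is on main — whichever engine proves
it.  The walls of S56 (BASE: `H2FormulaSpec`, SHA2) consume `PT.TheoremDSpec p S`
(`Ш²_S(M) ≃ Dual Ш¹_S(M′)` for the level-constant cohomology of `S55/PT`).  This file is the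
REVERSE bridge:

* `S55At p S`           — the conclusion of the frozen S55 for one `(p, S)`, as a `Prop`;
* `theoremD_of_s55At`   — `S55At p S → PT.TheoremDSpec p S`   (`p` odd, `p ∈ S`).

So BASE does not need `CapSpec` (A8) nor the master assembly of route C′ for Theorem D.
Proof: a two-sided non-degenerate pairing with one finite-dimensional side (`Ш¹` is finite:
`H593.finGlob`) forces equal finite dimensions; transport along `H724.sha1Equiv`, `sha2Equiv`.
-/

set_option autoImplicit false
set_option linter.style.haveILetI false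

noncomputable section

namespace Fermat.Agent.S56.H956

open groupCohomology ExtCitation Module Fermat.Agent.S55.PT

/-- The conclusion of the frozen statement S55 for `(p, S)`. -/
def S55At (p : ℕ) [Fact p.Prime] (S : Finset Nat.Primes) : Prop :=
  ∀ (M : Rep (ZMod p) (AlgebraicClosure ℚ ≃ₐ[ℚ] AlgebraicClosure ℚ))
    [FiniteDimensional (ZMod p) M],
    (∀ m : M, ∃ F : IntermediateField ℚ (AlgebraicClosure ℚ), FiniteDimensional ℚ F ∧
      ∀ s ∈ F.fixingSubgroup, M.ρ s m = m) →
    (∀ q : Nat.Primes, q ∉ S → ∀ A : ValuationSubring (AlgebraicClosure ℚ),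
      A.LiesOverPrime (q : ℕ) → ∀ g ∈ A.inertiaSubgroupIn ℚ, M.ρ g = 1) →
    ∃ B : sha₁ S (M.dualTwist (cycloChar p)) →ₗ[ZMod p] sha₂ S M →ₗ[ZMod p] ZMod p,
      (∀ y, (∀ x, B y x = 0) → y = 0) ∧ (∀ x, (∀ y, B y x = 0) → x = 0)

/-- A two-sided non-degenerate pairing `V × W → k` with `V` finite-dimensional gives
`W ≃ Dual V`. -/
theorem nonempty_equiv_dual_of_pairing {k V W : Type*} [Field k] [AddCommGroup V] [Module k V]
    [AddCommGroup W] [Module k W] [FiniteDimensional k V] (B : V →ₗ[k] W →ₗ[k] k)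
    (h1 : ∀ y, (∀ x, B y x = 0) → y = 0) (h2 : ∀ x, (∀ y, B y x = 0) → x = 0) :
    Nonempty (W ≃ₗ[k] Module.Dual k V) := by
  have hinj2 : Function.Injective B.flip := by
    refine (injective_iff_map_eq_zero B.flip).2 fun x hx => h2 x fun y => ?_
    have := congrArg (fun f : V →ₗ[k] k => f y) hx
    simpa using this
  have hinj1 : Function.Injective B := by
    refine (injective_iff_map_eq_zero B).2 fun y hy => h1 y fun x => ?_
    have := congrArg (fun f : W →ₗ[k] k => f x) hy
    simpa using this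
  haveI : FiniteDimensional k W := FiniteDimensional.of_injective B.flip hinj2
  have hle2 : finrank k W ≤ finrank k V := by
    have := LinearMap.finrank_le_finrank_of_injective hinj2
    rwa [Subspace.dual_finrank_eq] at this
  have hle1 : finrank k V ≤ finrank k W := by
    have := LinearMap.finrank_le_finrank_of_injective hinj1
    rwa [Subspace.dual_finrank_eq] at this
  have heq : finrank k W = finrank k (Module.Dual k V) := by
    rw [Subspace.dual_finrank_eq]
    exact le_antisymm hle2 hle1
  exact ⟨LinearEquiv.ofFinrankEq W (Module.Dual k V) heq⟩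

/-- **Theorem D from the frozen S55.** -/
theorem theoremD_of_s55At {p : ℕ} [Fact p.Prime] (hp2 : p ≠ 2) (S : Finset Nat.Primes)
    (hpS : pPrime p ∈ S) (h : S55At p S) : TheoremDSpec p S := by
  intro M hfd hsmooth
  haveI := hfd
  obtain ⟨U, ⟨F, hF, rfl⟩, hU⟩ := hsmooth
  have hsm : ∀ m : M, ∃ F' : IntermediateField ℚ (AlgebraicClosure ℚ),
      FiniteDimensional ℚ F' ∧ ∀ s ∈ F'.fixingSubgroup, M.ρ s m = m :=
    fun m => ⟨F, hF.1, fun s hs => hU s hs m⟩
  have hMur : ∀ q : Nat.Primes, q ∉ S → ∀ A : ValuationSubring (AlgebraicClosure ℚ),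
      A.LiesOverPrime (q : ℕ) → ∀ g ∈ A.inertiaSubgroupIn ℚ, M.ρ g = 1 := by
    intro q hq A hA g hg
    apply LinearMap.ext
    intro m
    exact hU g (hF.2 q hq A hA hg) m
  obtain ⟨B, hB1, hB2⟩ := h M hsm hMur
  obtain ⟨-, hsm'⟩ := H724.isUSmooth_of_s55_hyps S hpS M hsm hMur
  haveI : FiniteDimensional (ZMod p) (M.dualTwist (cycloChar p)) :=
    inferInstanceAs (FiniteDimensional (ZMod p) (Module.Dual (ZMod p) M))
  haveI hH1 : FiniteDimensional (ZMod p) ((globalLevels S).H1 (M.dualTwist (cycloChar p))) :=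
    H593.finGlob p S _ inferInstance hsm'
  have h2 : (2 : ZMod p) ≠ 0 := Fermat.Agent.S55.Bridge.two_ne_zero_zmod hp2
  let e₁ := H724.sha1Equiv S h2 (M.dualTwist (cycloChar p))
  let e₂ := H724.sha2Equiv S M h2
  haveI : FiniteDimensional (ZMod p) ↥(sha₁ S (M.dualTwist (cycloChar p))) :=
    Module.Finite.equiv e₁
  obtain ⟨E⟩ := nonempty_equiv_dual_of_pairing B hB1 hB2
  exact ⟨e₂.trans (E.trans e₁.dualMap)⟩

end Fermat.Agent.S56.H956

end
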